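/-
P-SS, row 961 (SS-HM-UNR), helper33: the chart `H` (Hauptmodul of level 4) of the model field of
level `N`, `4 ∣ N`, is unramified off the cusp values `0`, `-16`:

* `unramifiedNear_h4_generic` : for any field `E` over `K0 = Frac A` with a comparison map
  `ι : E → modularFunctionFieldBar N`, `ι x = h4Bar`, every disc `(ϖ, g)` containing neither
  `X` nor `X + 16` is unramified.
* `modelUnramified_h4` : `Fermat.Agent.H8.SS.ModelUnramifiedH4Statement N`.
-/
import Fermat.Agent.H8.SS.CrossInterfaces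
import Fermat.Agent.H2.KLBRModelT

set_option autoImplicit false
set_option synthInstance.maxHeartbeats 400000
set_option linter.style.haveILetI false

noncomputable section

open AlgebraicCurve IntermediateField Polynomial ModularCurve

namespace Fermat.Agent.H33.SS

open Fermat.Agent.H23 Fermat.Agent.H22.KL Fermat.Agent.H27.ESD Fermat.Agent.H2

section generic

variable (N : ℕ) [NeZero N]

local notation "Kbar" => AlgebraicClosure ℚ
set_option quotPrecheck false in
local notation "FN" => ↥(ModularCurve.modularFunctionFieldBar N)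

variable {K0 E : Type} [Field K0] [Field E] [Algebra K0 E] [Algebra K0 Kbar]

variable {A : Type} [CommRing A] [IsDomain A] [IsDiscreteValuationRing A]
  [Algebra A K0] [IsFractionRing A K0] [Algebra A E] [IsScalarTower A K0 E]
  [Algebra.IsAlgebraic K0 Kbar]

omit [Algebra.IsAlgebraic K0 Kbar] in
/-- the branch data of `h4Bar` in the `ramIdx` form consumed by `klbr_branchOrd_of_ramIdx`,
with all three exponents equal to `N`. -/
theorem h4Bar_ramIdx_form (h4 : 4 ∣ N) (c1 : K0) (hc1 : algebraMap K0 Kbar c1 = -16)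
    (v : Place Kbar FN) :
    (1 < ramIdx (Fermat.Agent.H8.SS.h4Bar N h4) v →
      v.ord (Fermat.Agent.H8.SS.h4Bar N h4) < 0 ∨ 0 < v.ord (Fermat.Agent.H8.SS.h4Bar N h4) ∨
        0 < v.ord (Fermat.Agent.H8.SS.h4Bar N h4 -
          algebraMap Kbar FN (algebraMap K0 Kbar c1))) ∧
      (v.ord (Fermat.Agent.H8.SS.h4Bar N h4) < 0 →
        ramIdx (Fermat.Agent.H8.SS.h4Bar N h4) v ∣ N) ∧
      (0 < v.ord (Fermat.Agent.H8.SS.h4Bar N h4) →
        ramIdx (Fermat.Agent.H8.SS.h4Bar N h4) v ∣ N) ∧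
      (0 < v.ord (Fermat.Agent.H8.SS.h4Bar N h4 -
          algebraMap Kbar FN (algebraMap K0 Kbar c1)) →
        ramIdx (Fermat.Agent.H8.SS.h4Bar N h4) v ∣ N) := by
  obtain ⟨-, h1, h2, h3, h5⟩ := Fermat.Agent.H8.SS.branchH4 N h4 v
  rw [hc1]
  exact ⟨h1, h2, fun h => dvd_trans (dvd_mul_left _ 4) (h3 h), h5⟩

omit [IsDiscreteValuationRing A] in
/-- **HM-UNR, generic form.** -/
theorem unramifiedNear_h4_generic (h4 : 4 ∣ N) (ϖ : A) (ι : E →+* FN)
    (hι : ∀ a : K0, ι (algebraMap K0 E a) = algebraMap Kbar FN (algebraMap K0 Kbar a))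
    (x : E) [Algebra.IsAlgebraic K0⟮x⟯ E] (hx : ι x = Fermat.Agent.H8.SS.h4Bar N h4)
    (g : A[X])
    (hg0 : ¬ ∃ p r : A[X], (X : A[X]) = C ϖ * p + g * r)
    (hg16 : ¬ ∃ p r : A[X], (X + C 16 : A[X]) = C ϖ * p + g * r) :
    UnramifiedNear A E ϖ x g := by
  have httr : Transcendental Kbar (ι x) := by
    rw [hx]
    exact Fermat.Agent.H8.SS.h4Bar_transcendental N h4
  have hfin : FiniteDimensional Kbar⟮ι x⟯ FN := by
    rw [hx]
    exact Fermat.Agent.H8.SS.h4Bar_finiteDimensional N h4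
  have hxtr : Transcendental K0 x := by
    rintro ⟨p, hp0, hp⟩
    apply httr
    refine ⟨p.map (algebraMap K0 Kbar), ?_, ?_⟩
    · rwa [Ne, Polynomial.map_eq_zero]
    · have h := congrArg ι hp
      rw [map_zero, aeval_def, hom_eval₂] at h
      have hcomp : (algebraMap Kbar FN).comp (algebraMap K0 Kbar) =
          ι.comp (algebraMap K0 E) := RingHom.ext fun a => (hι a).symm
      rw [aeval_def, eval₂_map, hcomp, h]
  have hc1 : algebraMap K0 Kbar (algebraMap A K0 (-16)) = -16 := by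
    rw [map_neg, map_neg, map_ofNat, map_ofNat]
  have hc1K : algebraMap A K0 (-16) ≠ 0 := by
    intro h
    rw [h, map_zero] at hc1
    norm_num at hc1
  have hBO : BranchOrd K0 Kbar (ι x) ({0, algebraMap A K0 (-16)} : Set K0)
      (branchExp K0 N N) N := by
    refine klbr_branchOrd_of_ramIdx (ι x) (algebraMap A K0 (-16)) N N N hc1K ?_
    intro v
    rw [hx]
    exact h4Bar_ramIdx_form N h4 (algebraMap A K0 (-16)) hc1 v
  have himg : algebraMap A K0 '' ({0, -16} : Set A) =
      ({0, algebraMap A K0 (-16)} : Set K0) := by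
    rw [Set.image_pair, map_zero]
  have hB : BranchPlaceForm K0 E x (algebraMap A K0 '' ({0, -16} : Set A))
      (branchExp K0 N N) N := by
    rw [himg]
    exact klbr_place_form ι hι x httr hfin _ _ _ hBO
  refine (unramifiedNearC_iff A E ϖ x g).mp
    (klbr_unramifiedNearC ϖ x ({0, -16} : Set A) (branchExp K0 N N) N hB hxtr g ?_)
  intro c hc
  rcases hc with rfl | hc
  · rw [C_0, sub_zero]
    exact hg0
  · rw [Set.mem_singleton_iff] at hc
    rw [hc, C_neg, sub_neg_eq_add]
    exact hg16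

end generic

section model

variable (N : ℕ) [NeZero N]

local notation "Kbar" => AlgebraicClosure ℚ
set_option quotPrecheck false in
local notation "FN" => ↥(ModularCurve.modularFunctionFieldBar N)

/-- **HM-UNR** (row 961): the chart `H` of the model field of level `N`, `4 ∣ N`, is unramified
off the cusp values `0`, `-16`. -/
theorem modelUnramified_h4 (h4 : 4 ∣ N) : Fermat.Agent.H8.SS.ModelUnramifiedH4Statement N := by
  intro K₁ _ _ _ A₀ _ _ _ _ _ _ _ ϖ _ x hx g _ _ hg0 hg16
  -- an embedding of `K₁` into `ℚ̄`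
  haveI : Algebra.IsAlgebraic ℚ K₁ := Algebra.IsAlgebraic.of_finite ℚ K₁
  let φ : K₁ →ₐ[ℚ] AlgebraicClosure ℚ := IsAlgClosed.lift
  letI algK : Algebra K₁ (AlgebraicClosure ℚ) := φ.toRingHom.toAlgebra
  haveI tow : IsScalarTower ℚ K₁ (AlgebraicClosure ℚ) :=
    IsScalarTower.of_algebraMap_eq (fun a => (φ.commutes a).symm)
  haveI : Algebra.IsAlgebraic ℚ (AlgebraicClosure ℚ) := AlgebraicClosure.isAlgebraic ℚ
  haveI : Algebra.IsAlgebraic K₁ (AlgebraicClosure ℚ) :=
    Algebra.IsAlgebraic.tower_top (K := ℚ) K₁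
  -- the comparison map
  let ι : ModelField K₁ N →+* ↥(modularFunctionFieldBar N) :=
    Fermat.Agent.H93.KL.klBc φ.toRingHom (modularFunctionFieldFull N)
  have hι : ∀ a : K₁, ι (algebraMap K₁ (ModelField K₁ N) a) =
      algebraMap (AlgebraicClosure ℚ) ↥(modularFunctionFieldBar N)
        (algebraMap K₁ (AlgebraicClosure ℚ) a) := fun a =>
    Fermat.Agent.H73.KLDesc.klBc_algebraMap φ.toRingHom (modularFunctionFieldFull N) a
  have hxt : ι x = Fermat.Agent.H8.SS.h4Bar N h4 := by
    apply Subtype.ext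
    show coeffMap φ.toRingHom (x : LaurentSeries K₁) =
      Fermat.Agent.H8.SS.h4S (AlgebraicClosure ℚ)
    rw [hx, coeffEmb, coeffMap_coeffMap]
    exact Fermat.Agent.H8.SS.coeffMap_h4S _
  -- algebraicity over `K₁(x)`
  haveI hfin' : FiniteDimensional Kbar⟮ι x⟯ FN := by
    rw [hxt]
    exact Fermat.Agent.H8.SS.h4Bar_finiteDimensional N h4
  haveI : Algebra.IsAlgebraic Kbar⟮ι x⟯ FN := Algebra.IsAlgebraic.of_finite _ _
  haveI : Algebra.IsAlgebraic K₁⟮x⟯ (ModelField K₁ N) := klbr_isAlgebraic_descent ι hι x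
  exact unramifiedNear_h4_generic N h4 ϖ ι hι x hxt g hg0 hg16

end model

end Fermat.Agent.H33.SS
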