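/-
P-SS (helper33): `q · B_{q-1} ≡ -1 (mod q)` (from von Staudt–Clausen) and the congruence
`E_{q-1} ≡ 1 (mod q)` for the `q`-expansion coefficients of the Eisenstein series of weight
`q - 1`, `q ≥ 5` prime.  Mathlib only.
-/
import Mathlib

set_option autoImplicit false

open Finset

namespace Fermat.Agent.H33.SS

/-- An integer has `q`-adic valuation at most one. -/
lemma padicValuation_intCast_le_one (q : ℕ) [Fact q.Prime] (n : ℤ) :
    Rat.padicValuation q (n : ℚ) ≤ 1 := by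
  rw [Rat.padicValuation_cast]
  exact Int.padicValuation_le_one q n

/-- A natural number prime to `q` is a `q`-adic unit. -/
lemma padicValuation_natCast_eq_one (q : ℕ) [Fact q.Prime] {n : ℕ} (hn : ¬ q ∣ n) :
    Rat.padicValuation q (n : ℚ) = 1 := by
  have h : ((n : ℤ) : ℚ) = (n : ℚ) := by norm_cast
  rw [← h, Rat.padicValuation_cast, Int.padicValuation_eq_one_iff]
  exact_mod_cast hn

/-- `v_q(q) < 1`. -/
lemma padicValuation_self_lt_one (q : ℕ) [Fact q.Prime] :
    Rat.padicValuation q (q : ℚ) < 1 := by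
  have h : ((q : ℤ) : ℚ) = (q : ℚ) := by norm_cast
  rw [← h, Rat.padicValuation_cast, Int.padicValuation_lt_one_iff]

/-- **`q · B_{q-1} ≡ -1 (mod q)`**, in valuation form. -/
theorem padicValuation_mul_bernoulli_add_one (q : ℕ) [hq : Fact q.Prime] (h3 : 3 ≤ q) :
    Rat.padicValuation q ((q : ℚ) * bernoulli (q - 1) + 1) < 1 := by
  have hodd : Odd q := hq.out.odd_of_ne_two (by omega)
  obtain ⟨k, hk⟩ := hodd
  have hk2 : q - 1 = 2 * k := by omega
  obtain ⟨n, hn⟩ := Bernoulli.vonStaudt_clausen k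
  rw [← hk2] at hn
  set P : Finset ℕ := (range (q - 1 + 2)).filter (fun p => p.Prime ∧ (p - 1) ∣ (q - 1)) with hP
  have hqP : q ∈ P := by
    rw [hP, mem_filter, mem_range]
    exact ⟨by omega, hq.out, dvd_rfl⟩
  have hq0 : (q : ℚ) ≠ 0 := Nat.cast_ne_zero.2 hq.out.ne_zero
  have hsum : ∑ p ∈ P, (1 : ℚ) / p = 1 / q + ∑ p ∈ P.erase q, (1 : ℚ) / p :=
    (Finset.add_sum_erase P (fun p => (1 : ℚ) / p) hqP).symm
  have hB : bernoulli (q - 1) = n - 1 / q - ∑ p ∈ P.erase q, (1 : ℚ) / p := by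
    rw [hsum] at hn
    linarith
  have e : (q : ℚ) * bernoulli (q - 1) + 1 = q * ((n : ℚ) - ∑ p ∈ P.erase q, (1 : ℚ) / p) := by
    rw [hB]
    field_simp
    ring
  rw [e, map_mul]
  have hs : Rat.padicValuation q (∑ p ∈ P.erase q, (1 : ℚ) / p) ≤ 1 := by
    refine Valuation.map_sum_le _ (fun p hp => ?_)
    rw [mem_erase, hP, mem_filter] at hp
    obtain ⟨hpq, -, hpp, -⟩ := hp
    have hndvd : ¬ q ∣ p := fun h =>
      hpq ((Nat.prime_dvd_prime_iff_eq hq.out hpp).1 h).symm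
    rw [map_div₀, map_one, padicValuation_natCast_eq_one q hndvd, div_one]
  have hsub : Rat.padicValuation q ((n : ℚ) - ∑ p ∈ P.erase q, (1 : ℚ) / p) ≤ 1 :=
    Valuation.map_sub_le _ (padicValuation_intCast_le_one q n) hs
  calc Rat.padicValuation q (q : ℚ) *
        Rat.padicValuation q ((n : ℚ) - ∑ p ∈ P.erase q, (1 : ℚ) / p)
      ≤ Rat.padicValuation q (q : ℚ) * 1 := by gcongr
    _ = Rat.padicValuation q (q : ℚ) := mul_one _
    _ < 1 := padicValuation_self_lt_one q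

/-- `q · B_{q-1}` is a `q`-adic unit. -/
theorem padicValuation_mul_bernoulli (q : ℕ) [hq : Fact q.Prime] (h3 : 3 ≤ q) :
    Rat.padicValuation q ((q : ℚ) * bernoulli (q - 1)) = 1 := by
  have h1 := padicValuation_mul_bernoulli_add_one q h3
  have h2 : Rat.padicValuation q (-1 : ℚ) = 1 := by
    rw [Valuation.map_neg, map_one]
  have e : (q : ℚ) * bernoulli (q - 1) = ((q : ℚ) * bernoulli (q - 1) + 1) + (-1) := by ring
  rw [e, Valuation.map_add_eq_of_lt_right]
  · exact h2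
  · rw [h2]; exact h1

/-- The constant `2 (q - 1) / B_{q-1}` of the Eisenstein series of weight `q - 1` is
`q` times a `q`-integral rational number. -/
theorem exists_eisenstein_const (q : ℕ) [hq : Fact q.Prime] (h3 : 3 ≤ q) :
    ∃ r : ℚ, ¬ q ∣ r.den ∧ (2 * ((q - 1 : ℕ) : ℚ) / bernoulli (q - 1)) = q * r := by
  have hu := padicValuation_mul_bernoulli q h3
  have ht0 : (q : ℚ) * bernoulli (q - 1) ≠ 0 := by
    intro h0
    rw [h0, map_zero] at hu
    exact zero_ne_one hu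
  have hq0 : (q : ℚ) ≠ 0 := Nat.cast_ne_zero.2 hq.out.ne_zero
  have hB0 : bernoulli (q - 1) ≠ 0 := fun h => ht0 (by rw [h, mul_zero])
  refine ⟨2 * ((q - 1 : ℕ) : ℚ) / ((q : ℚ) * bernoulli (q - 1)), ?_, ?_⟩
  · rw [← Rat.padicValuation_le_one_iff, map_div₀, hu, div_one]
    have e : (2 * ((q - 1 : ℕ) : ℚ)) = ((2 * (q - 1 : ℕ) : ℤ) : ℚ) := by push_cast; ring
    rw [e]
    exact padicValuation_intCast_le_one q _
  · field_simp

open ModularFormClass UpperHalfPlane in
/-- **`E_{q-1} ≡ 1 (mod q)`**: for `m ≥ 1` the `m`-th `q`-expansion coefficient of the Eisenstein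
series of weight `q - 1` is `q` times a `q`-integral rational number (and the constant
coefficient is `1`). -/
theorem eisenstein_pred_qExpansion_coeff (q : ℕ) [hq : Fact q.Prime] (hk : 3 ≤ q - 1)
    (m : ℕ) (hm : m ≠ 0) :
    ∃ r : ℚ, ¬ q ∣ r.den ∧
      (qExpansion 1 (ModularForm.E hk)).coeff m = (((q : ℚ) * r : ℚ) : ℂ) := by
  have h3 : 3 ≤ q := by omega
  have hodd : Odd q := hq.out.odd_of_ne_two (by omega)
  have hk2 : Even (q - 1) := by
    obtain ⟨k, hk'⟩ := hodd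
    exact ⟨k, by omega⟩
  obtain ⟨r₀, hr₀, he⟩ := exists_eisenstein_const q h3
  rw [EisensteinSeries.E_qExpansion_coeff hk hk2 m, if_neg hm]
  refine ⟨-r₀ * ((ArithmeticFunction.sigma (q - 1 - 1) m : ℕ) : ℚ), ?_, ?_⟩
  · rw [← Rat.padicValuation_le_one_iff, map_mul, Valuation.map_neg]
    have h1 : Rat.padicValuation q r₀ ≤ 1 := Rat.padicValuation_le_one_iff.2 hr₀
    have h2 : Rat.padicValuation q ((ArithmeticFunction.sigma (q - 1 - 1) m : ℕ) : ℚ) ≤ 1 := by
      have := padicValuation_intCast_le_one q ((ArithmeticFunction.sigma (q - 1 - 1) m : ℕ) : ℤ)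
      exact_mod_cast this
    exact mul_le_one' h1 h2
  · have he' : (2 * ((q - 1 : ℕ) : ℂ) / (bernoulli (q - 1) : ℂ)) = ((q : ℚ) * r₀ : ℚ) := by
      rw [← he]
      push_cast
      rfl
    rw [he']
    push_cast
    ring

end Fermat.Agent.H33.SS
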